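/-
P-ORD, block B1-ANCHOR (helper37; findings #569, #581): the anchor lift for the concrete nodal
data `nmG` of `X₀(M p)` (helper84).

`nmAnchor` : `AnchorLift (nmG htot)` from

* the soft facts `NmSoftStatement` (B1-GAUSS), `NmRvHypStatement`, the nodes `NmCrossStatement`
  ([XY], only "nodes are not cuspidal" is used);
* **[CRT]** `NmCrtStatement`, `NmCrtInvStatement` and **[LIFT]** `NmChartLiftStatement`.

All the other fields of `AnchorCharts (nmG htot) j B̄(j) B̄(j⁻¹)` are proved here.
-/
import Fermat.Agent.H37.ORD.AnchorNmDefs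
import Fermat.Agent.H84.ORD.NodalSpecFinal
import Fermat.Agent.H60.KLModelCusp
import Fermat.Agent.H58.RR.Modular

set_option autoImplicit false
set_option linter.unusedSectionVars false
set_option linter.unusedVariables false
set_option linter.style.haveILetI false
set_option maxHeartbeats 1600000

noncomputable section

open AlgebraicCurve ModularCurve

namespace Fermat.Agent.H37.ORD

open Fermat.Agent.H72.FF Fermat.Agent.H18.ORD Fermat.Agent.H84.ORD Fermat.Agent.H66

/-! ### The function `j` -/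

/-- `j` has a pole (at the cusp `∞`) -/
theorem nm_j_pole (N : ℕ) [NeZero N] : ∃ P : Place Qb (FLb N), P.ord (nmJ N) < 0 := by
  obtain ⟨P, hP⟩ := Fermat.Agent.H60.modelCuspPlace N Qb
  have hcoe : ((nmJ N : FLb N) : LaurentSeries Qb) = coeffEmb Qb jq := by
    show coeffEmb Qb (qExpand ℚ 1 jq) = _
    rw [qExpand_one_apply]
  have hord : ((nmJ N : FLb N) : LaurentSeries Qb).order = -1 := by
    rw [hcoe]; exact Fermat.Agent.H60.klm_order_coeffEmb_jq Qb
  have hne : nmJ N ≠ 0 := by
    intro h0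
    rw [h0] at hord
    have : ((0 : FLb N) : LaurentSeries Qb) = 0 := rfl
    rw [this, HahnSeries.order_zero] at hord
    omega
  refine ⟨P, ?_⟩
  have := hP (nmJ N) hne
  rw [this, hord]
  omega

theorem nm_j_ne_zero (N : ℕ) [NeZero N] : nmJ N ≠ 0 := by
  obtain ⟨P, hP⟩ := nm_j_pole N
  rintro h0
  rw [h0, Place.ord_zero] at hP
  exact lt_irrefl _ hP

section Chart

variable {N : ℕ} [NeZero N] (A : ValuationSubring Qb)

/-- elements of `B̄(y)` are regular at the places where `y` is -/
theorem nm_chart_reg (y : FLb N) {f : FLb N} (hf : f ∈ nmChart N A y)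
    (P : Place Qb (FLb N)) (hy : y = 0 ∨ 0 ≤ P.ord y) : 0 ≤ P.ord f := by
  have hyP : y ∈ P.toValuationSubring := (Fermat.Agent.H23.mem_iff_ord P).mpr hy
  have h1 : f ∈ P.toValuationSubring :=
    nmChart_le A P.toValuationSubring (fun c _ => P.algebraMap_mem' c) hyP hf
  rcases (Fermat.Agent.H23.mem_iff_ord P).mp h1 with h | h
  · rw [h, Place.ord_zero]
  · exact h

end Chart

/-! ### A generic component -/

section Comp

variable {N : ℕ} [NeZero N] {A : ValuationSubring Qb} {Fk : Type} [Field Fk]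
  [Algebra (kRes A) Fk] {V : Subring (FLb N)} {red : V →+* Fk}

/-- `red j ≠ 0` -/
theorem CompSoft_red_j_ne (H : CompSoft A V red) : red ⟨nmJ N, H.j_mem⟩ ≠ 0 := by
  intro h0
  have h1 : (⟨nmJ N, H.j_mem⟩ : V) * ⟨(nmJ N)⁻¹, H.jinv_mem⟩ = 1 :=
    Subtype.ext (mul_inv_cancel₀ (nm_j_ne_zero N))
  have h2 := congrArg red h1
  rw [map_mul, h0, zero_mul, map_one] at h2
  exact zero_ne_one h2

/-- `red j⁻¹ = (red j)⁻¹` -/
theorem CompSoft_red_jinv (H : CompSoft A V red) :
    red ⟨(nmJ N)⁻¹, H.jinv_mem⟩ = (red ⟨nmJ N, H.j_mem⟩)⁻¹ := by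
  have h1 : (⟨nmJ N, H.j_mem⟩ : V) * ⟨(nmJ N)⁻¹, H.jinv_mem⟩ = 1 :=
    Subtype.ext (mul_inv_cancel₀ (nm_j_ne_zero N))
  have h2 := congrArg red h1
  rw [map_mul, map_one] at h2
  exact eq_inv_of_mul_eq_one_right h2

/-- poles of `j` specialise to poles of `red j` -/
theorem CompSoft_spec_pole (H : CompSoft A V red) (P : Place Qb (FLb N))
    (Q : Place (kRes A) Fk) (hQ : GenSpec V red (nmCentre A P) Q)
    (hP : P.ord (nmJ N) < 0) : Q.ord (red ⟨nmJ N, H.j_mem⟩) < 0 := by
  classical
  have hnot : nmJ N ∉ nmInt A P := by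
    rintro ⟨c, -, hc⟩
    have := Fermat.Agent.H94.FF.HasVal.ord_nonneg (P := P) hc
    omega
  have hy : nmY A P = (nmJ N)⁻¹ := by unfold nmY; rw [if_neg hnot]
  have hv : HasValue P (nmJ N)⁻¹ 0 := by
    right
    rw [map_zero, sub_zero, Place.ord_inv]
    omega
  have hcen : (nmJ N)⁻¹ ∈ nmCentre A P := by
    refine ⟨?_, 0, (ValuationSubring.mem_nonunits_iff _).2 (by simp), hv⟩
    rw [hy]
    exact self_mem_nmChart A _
  have h1 := hQ _ hcen H.jinv_mem
  rw [CompSoft_red_jinv H, nb_mem_nonunits_iff] at h1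
  rcases h1 with h | h
  · exact absurd h (inv_ne_zero (CompSoft_red_j_ne H))
  · rw [Place.ord_inv] at h
    omega

/-- zeros of `j` specialise to zeros of `red j` -/
theorem CompSoft_spec_zero (H : CompSoft A V red) (P : Place Qb (FLb N))
    (Q : Place (kRes A) Fk) (hQ : GenSpec V red (nmCentre A P) Q)
    (hP : 0 < P.ord (nmJ N)) : 0 < Q.ord (red ⟨nmJ N, H.j_mem⟩) := by
  classical
  have hv : HasValue P (nmJ N) 0 := by
    right
    rw [map_zero, sub_zero]
    omega
  have hin : nmJ N ∈ nmInt A P := ⟨0, A.zero_mem, hv⟩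
  have hy : nmY A P = nmJ N := by unfold nmY; rw [if_pos hin]
  have hcen : nmJ N ∈ nmCentre A P := by
    refine ⟨?_, 0, (ValuationSubring.mem_nonunits_iff _).2 (by simp), hv⟩
    rw [hy]
    exact self_mem_nmChart A _
  have h1 := hQ _ hcen H.j_mem
  rw [nb_mem_nonunits_iff] at h1
  rcases h1 with h | h
  · exact absurd h (CompSoft_red_j_ne H)
  · omega

/-- the value of `red j` at a place over the centre of `P`, for `P` in the chart `j` -/
theorem CompSoft_glue_j (H : CompSoft A V red) (P : Place Qb (FLb N))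
    (Q : Place (kRes A) Fk) (hQ : GenSpec V red (nmCentre A P) Q)
    (hy : nmY A P = nmJ N) {c : Qb} (hcA : c ∈ A)
    (hcen : nmJ N - algebraMap Qb (FLb N) c ∈ nmCentre A P) :
    red ⟨nmJ N, H.j_mem⟩ - algebraMap (kRes A) Fk (IsLocalRing.residue A ⟨c, hcA⟩) ∈
      Q.toValuationSubring.nonunits := by
  have hmem : nmJ N - algebraMap Qb (FLb N) c ∈ V := V.sub_mem H.j_mem (H.const_mem c hcA)
  have h1 := hQ _ hcen hmem
  have e : (⟨nmJ N - algebraMap Qb (FLb N) c, hmem⟩ : V) =
      ⟨nmJ N, H.j_mem⟩ - ⟨algebraMap Qb (FLb N) c, H.const_mem c hcA⟩ := rfl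
  rw [e, map_sub, H.red_const' hcA] at h1
  exact h1

end Comp

/-! ### The anchor lift for `nmG` -/

section Main

variable {M p : ℕ} [NeZero M] [NeZero p] {A : ValuationSubring Qb}

/-- a place specialising to a node lies in the chart `j` (from [XY]) -/
theorem nm_node_chart (hX : NmCrossStatement M p) (H : NmBase M p A)
    (P : Place Qb (FLb (M * p)))
    (hOo : NmOnOo M p A (nmCentre A P)) (hZ : NmOnZero M p H.setup.cop A (nmCentre A P)) :
    nmY A P = nmJ (M * p) := by
  obtain ⟨Q, hQ⟩ := hOo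
  obtain ⟨Q', hQ'⟩ := hZ
  exact (hX A H.setup P (H.idealOo_of_specOo hQ) (H.idealZero_of_specZero hQ')).1

/-- **the chart structure of `nmG`** -/
theorem nm_anchorCharts (hX : NmCrossStatement M p) (hC : NmCrtStatement M p)
    (hC' : NmCrtInvStatement M p) (hL : NmChartLiftStatement M p)
    (H : NmBase M p A) (htot : NmTot M p H.setup.cop A) :
    AnchorCharts (nmG htot) (nmJ (M * p)) (nmChart (M * p) A (nmJ (M * p)))
      (nmChart (M * p) A (nmJ (M * p))⁻¹) := by
  classical
  have hjoo : nmJ (M * p) ∈ (nmG htot).Voo := H.oo.j_mem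
  have hjz : nmJ (M * p) ∈ (nmG htot).V0 := H.zero.j_mem
  have hnode : ∀ (P : Place Qb (FLb (M * p))) (ν : NmNode M p H.setup.cop A),
      (nmG htot).r P = NPt.node ν → nmY A P = nmJ (M * p) := by
    intro P ν hP
    have hc : nmCentre A P = ν.1 := (nmR_node_iff htot P ν).mp hP
    have h1 : NmOnOo M p A (nmCentre A P) := by rw [hc]; exact ν.2.2.1
    have h2 : NmOnZero M p H.setup.cop A (nmCentre A P) := by rw [hc]; exact ν.2.2.2
    exact nm_node_chart hX H P h1 h2
  exact
    { x_oo := hjoo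
      x_zero := hjz
      red_oo_ne := CompSoft_red_j_ne H.oo
      red_zero_ne := CompSoft_red_j_ne H.zero
      pole := nm_j_pole (M * p)
      reg := fun f hf P hP => nm_chart_reg A _ hf P (Or.inr hP)
      reg' := fun f hf P hP => nm_chart_reg A _ hf P (Or.inr (by rw [Place.ord_inv]; omega))
      node_reg := by
        intro P ν hP
        have hy := hnode P ν hP
        have h1 : nmY A P ∈ nmComp A P (H.deg P) := nmY_mem_nmComp P (H.deg P)
        rw [hy] at h1
        obtain ⟨c, -, hc⟩ := h1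
        exact Fermat.Agent.H94.FF.HasVal.ord_nonneg (P := P) hc
      spec_pole_oo := fun P Q hP hord =>
        CompSoft_spec_pole H.oo P Q (nmR_oo htot P Q hP).2 hord
      spec_zero_oo := fun P Q hP hord =>
        CompSoft_spec_zero H.oo P Q (nmR_oo htot P Q hP).2 hord
      spec_pole_zero := fun P Q hP hord =>
        CompSoft_spec_pole H.zero P Q (nmR_zero htot P Q hP).2 hord
      spec_zero_zero := fun P Q hP hord =>
        CompSoft_spec_zero H.zero P Q (nmR_zero htot P Q hP).2 hord
      glue_x := by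
        intro ν
        obtain ⟨P, hP⟩ := ν.2.1
        have h1 : NmOnOo M p A (nmCentre A P) := by rw [hP]; exact ν.2.2.1
        have h2 : NmOnZero M p H.setup.cop A (nmCentre A P) := by rw [hP]; exact ν.2.2.2
        have hy := nm_node_chart hX H P h1 h2
        have hjB : nmJ (M * p) ∈ nmChart (M * p) A (nmY A P) := by
          rw [hy]; exact self_mem_nmChart A _
        obtain ⟨c, hcA, -, hcen⟩ := nmChart_decomp P (H.deg P) hjB
        have hsOo : NmSpecOo M p A (nmCentre A P) (nmNOo M p H.setup.cop A ν) := by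
          rw [hP]; exact nmNOo_spec M p H.setup.cop A ν
        have hsZ : NmSpecZero M p H.setup.cop A (nmCentre A P) (nmN0 M p H.setup.cop A ν) := by
          rw [hP]; exact nmN0_spec M p H.setup.cop A ν
        exact ⟨IsLocalRing.residue A ⟨c, hcA⟩,
          CompSoft_glue_j H.oo P _ hsOo hy hcA hcen,
          CompSoft_glue_j H.zero P _ hsZ hy hcA hcen⟩
      crt := hC A H.setup htot hjoo hjz
      crt' := hC' A H.setup htot hjoo hjz
      lift := hL A H.setup htot hjoo hjz }

/-- **[ANCHOR] for `X₀(M p)`** : `AnchorLift (nmG htot)` from the soft facts, the nodal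
reduction hypotheses, [XY], [CRT] on both charts and the chart lift. -/
theorem nmAnchor (hS : NmSoftStatement M p) (hR : NmRvHypStatement M p)
    (hX : NmCrossStatement M p) (hC : NmCrtStatement M p) (hC' : NmCrtInvStatement M p)
    (hL : NmChartLiftStatement M p) : NmAnchorStatement M p := by
  intro A h htot
  have H : NmBase M p A := nmBase_of_soft hS h
  have hrr := Fermat.Agent.H58.rrHyp_modularFunctionFieldBar (M * p)
  exact anchorLift_of_charts (hR A h htot) hrr.principal hrr.deg_one
    (nm_anchorCharts hX hC hC' hL H htot)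

end Main

end Fermat.Agent.H37.ORD

end
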