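import Fermat.Agent.H37.FF.UnrLifting

/-!
# P-ORD, block B1, input `[DESC]` of findings #553 (helper37)

Galois descent of Riemann-Roch spaces, level-independent: for a divisor `D` of `F = FLb N`
which is stable under the inertia group of `A` (e.g. `n P_∞ + n P_0` with `P_∞`, `P_0`
inertia-fixed), the space `L(D)` has a basis of inertia-fixed functions, in echelon form with
respect to the `q`-expansion coefficients at `∞` (`Fermat.Agent.H37.FF.coeffLin`).

* `smul_mem_rr_of_stable` : `L(D)` is stable under `σ` if `D` is;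
* `rr_descent` : the echelon basis of inertia-fixed functions;
* `rr_descent_basis` : the same, as a linearly independent spanning family indexed by `Fin d`;
* `stable_two_points`, `rr_descent_two_points` : the case `D = n P_∞ + n P_0`.
-/

set_option autoImplicit false
set_option linter.unusedSectionVars false
set_option linter.style.haveILetI false
set_option synthInstance.maxHeartbeats 400000
set_option maxHeartbeats 1600000

noncomputable section

open ModularCurve AlgebraicCurve

namespace Fermat.Agent.H37.ORD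

open Fermat.Agent.H18 Fermat.Agent.H72.FF Fermat.Agent.H27.ESD Fermat.Agent.H10.FF
  Fermat.Agent.H37.FF

/-- Riemann-Roch spaces of `σ`-stable divisors are `σ`-stable. -/
theorem smul_mem_rr_of_stable (N : ℕ) (σ : GQ) (D : Divisor Qb (FLb N))
    (hD : ∀ v : Place Qb (FLb N), D ((galF N σ)⁻¹ • v) = D v) (f : FLb N)
    (hf : f ∈ riemannRochSpace D) : galF N σ • f ∈ riemannRochSpace D := by
  classical
  rw [mem_riemannRochSpace_iff] at hf ⊢
  intro v
  rcases hf ((galF N σ)⁻¹ • v) with h | h
  · left
    rw [h, smul_zero]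
  · right
    have h1 : v.ord (galF N σ • f) = ((galF N σ)⁻¹ • v).ord f := by
      have := SemilinearAut.ord_smul (galF N σ) ((galF N σ)⁻¹ • v) f
      rwa [smul_inv_smul] at this
    rw [h1, ← hD v]
    exact h

/-- **[DESC]** an inertia-stable divisor has an echelon basis of inertia-fixed functions. -/
theorem rr_descent (A : ValuationSubring Qb) (N : ℕ) (D : Divisor Qb (FLb N))
    [FiniteDimensional Qb (riemannRochSpace D)]
    (hD : ∀ σ ∈ A.inertiaSubgroupIn ℚ, ∀ v : Place Qb (FLb N),
      D ((galF N σ)⁻¹ • v) = D v) :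
    ∃ (S : Finset ℤ) (e : ℤ → FLb N), (∀ j ∈ S, e j ∈ riemannRochSpace D) ∧
      (∀ j ∈ S, IsUnrFn A N (e j)) ∧
      (∀ i ∈ S, ∀ j ∈ S, coeffLin N i (e j) = if i = j then 1 else 0) ∧
      (∀ f ∈ riemannRochSpace D, (∀ i ∈ S, coeffLin N i f = 0) → f = 0) ∧
      S.card = Module.finrank Qb (riemannRochSpace D) := by
  classical
  obtain ⟨S, e, heV, hδ, huniq⟩ :=
    exists_echelon (coeffLin N) (coeffLin_injective N) (riemannRochSpace D)
  have hcard := echelon_card (coeffLin N) (riemannRochSpace D) S e heV hδ huniq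
  refine ⟨S, e, heV, ?_, hδ, huniq, hcard⟩
  intro j hj σ hσ
  have h1 : galF N σ • e j ∈ riemannRochSpace D :=
    smul_mem_rr_of_stable N σ D (hD σ hσ) (e j) (heV j hj)
  have h2 : galF N σ • e j - e j = 0 := by
    refine huniq _ (Submodule.sub_mem _ h1 (heV j hj)) fun i hi => ?_
    rw [map_sub, coeffLin_apply, coeffLin_apply, coe_arithmeticGalois_smul, coeffMap_coeff]
    have h3 := hδ i hi j hj
    rw [coeffLin_apply] at h3
    rw [h3]
    split_ifs
    · rw [map_one, sub_self]
    · rw [map_zero, sub_self]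
  exact sub_eq_zero.mp h2

/-- **[DESC]**, basis form: `L(D)` is spanned by a linearly independent family of `l(D)`
inertia-fixed functions. -/
theorem rr_descent_basis (A : ValuationSubring Qb) (N : ℕ) (D : Divisor Qb (FLb N))
    [FiniteDimensional Qb (riemannRochSpace D)]
    (hD : ∀ σ ∈ A.inertiaSubgroupIn ℚ, ∀ v : Place Qb (FLb N),
      D ((galF N σ)⁻¹ • v) = D v) :
    ∃ f : Fin (Module.finrank Qb (riemannRochSpace D)) → FLb N,
      (∀ i, f i ∈ riemannRochSpace D) ∧ (∀ i, IsUnrFn A N (f i)) ∧
      LinearIndependent Qb f ∧ Submodule.span Qb (Set.range f) = riemannRochSpace D := by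
  classical
  obtain ⟨S, e, heV, hefix, hδ, huniq, hcard⟩ := rr_descent A N D hD
  have hli := echelon_linearIndependent (coeffLin N) S e hδ
  have eqv : Fin (Module.finrank Qb (riemannRochSpace D)) ≃ S :=
    (finCongr hcard.symm).trans S.equivFin.symm
  refine ⟨fun i => e ((eqv i : S) : ℤ), fun i => heV _ (eqv i).2, fun i => hefix _ (eqv i).2,
    hli.comp _ eqv.injective, ?_⟩
  apply le_antisymm
  · refine Submodule.span_le.mpr ?_
    rintro _ ⟨i, rfl⟩
    exact heV _ (eqv i).2
  · intro g hg
    rw [echelon_expand (coeffLin N) (riemannRochSpace D) S e heV hδ huniq g hg]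
    refine Submodule.sum_mem _ fun j hj => Submodule.smul_mem _ _ ?_
    refine Submodule.subset_span ⟨eqv.symm ⟨j, hj⟩, ?_⟩
    simp

/-- The divisor `n P_∞ + m P_0` of two inertia-fixed places is inertia-stable. -/
theorem stable_two_points (A : ValuationSubring Qb) (N : ℕ) (Poo P0 : Place Qb (FLb N))
    (hPoo : IsUnrPlace A N Poo) (hP0 : IsUnrPlace A N P0) (n m : ℤ) :
    ∀ σ ∈ A.inertiaSubgroupIn ℚ, ∀ v : Place Qb (FLb N),
      (Finsupp.single Poo n + Finsupp.single P0 m : Divisor Qb (FLb N))
          ((galF N σ)⁻¹ • v) =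
        (Finsupp.single Poo n + Finsupp.single P0 m : Divisor Qb (FLb N)) v := by
  classical
  intro σ hσ v
  have key : ∀ P : Place Qb (FLb N), galF N σ • P = P → ∀ k : ℤ,
      (Finsupp.single P k : Divisor Qb (FLb N)) ((galF N σ)⁻¹ • v) =
        (Finsupp.single P k : Divisor Qb (FLb N)) v := by
    intro P hP k
    have hP' : (galF N σ)⁻¹ • P = P := by
      conv_lhs => rw [← hP]
      exact inv_smul_smul _ _
    by_cases hv : v = P
    · rw [hv, hP']
    · have hv' : (galF N σ)⁻¹ • v ≠ P := by
        intro h'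
        apply hv
        have := congrArg (fun Q => galF N σ • Q) h'
        simp only [smul_inv_smul] at this
        rw [this, hP]
      rw [Finsupp.single_apply, Finsupp.single_apply, if_neg (Ne.symm hv'),
        if_neg (Ne.symm hv)]
  rw [Finsupp.add_apply, Finsupp.add_apply, key Poo (hPoo σ hσ) n, key P0 (hP0 σ hσ) m]

/-- **[DESC]** for `D = n P_∞ + m P_0`, `P_∞`, `P_0` inertia-fixed. -/
theorem rr_descent_two_points (A : ValuationSubring Qb) (N : ℕ) (Poo P0 : Place Qb (FLb N))
    (hPoo : IsUnrPlace A N Poo) (hP0 : IsUnrPlace A N P0) (n m : ℤ)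
    [FiniteDimensional Qb
      (riemannRochSpace (Finsupp.single Poo n + Finsupp.single P0 m : Divisor Qb (FLb N)))] :
    ∃ f : Fin (Module.finrank Qb
        (riemannRochSpace (Finsupp.single Poo n + Finsupp.single P0 m :
          Divisor Qb (FLb N)))) → FLb N,
      (∀ i, f i ∈ riemannRochSpace (Finsupp.single Poo n + Finsupp.single P0 m)) ∧
      (∀ i, IsUnrFn A N (f i)) ∧ LinearIndependent Qb f ∧
      Submodule.span Qb (Set.range f) =
        riemannRochSpace (Finsupp.single Poo n + Finsupp.single P0 m) :=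
  rr_descent_basis A N _ (stable_two_points A N Poo P0 hPoo hP0 n m)

end Fermat.Agent.H37.ORD
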