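/-
P-ORD, block B1-ANCHOR (helper37; findings #569 [POLE] + [ANCHOR]).

Abstract form: `AnchorLift G` (helper18) from a chart structure on a nodal reduction.

`x` is the chart function (`j` for `X₀(M p)`), `B`, `B'` the two charts (integral closures of
`A[x]`, `A[x⁻¹]`).  `AnchorCharts G x B B'` packages

* the elementary facts (`x` is a unit of both Gauss rings, has a pole, `B ⊆ V_∞ ∩ V_0`,
  elements of `B` are regular where `x` is, elements of `B'` are regular where `x⁻¹` is,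
  the nodes lie in the chart `x`, poles / zeros of `x` specialise to poles / zeros of its
  reductions, `x` is glued at the nodes);
* **[CRT]** `crt`, `crt'` : glued pairs of functions on the two components, regular on the
  chart, are reductions of elements of the chart ring;
* **[LIFT]** `lift` : the chart lift (vanishing of the Čech `H¹`), with a uniform exponent.

`anchorLift_of_charts` : `NodalRvHyp p G → AnchorCharts G x B B' → AnchorLift G`, with
`D₀ =` the polar divisor of `x`.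
-/
import Fermat.Agent.H18.ORD.NodalGlued
import Fermat.Agent.H94.FF.Val
import Fermat.Agent.H58.RR.Basic

set_option autoImplicit false
set_option linter.unusedSectionVars false
set_option linter.unusedVariables false
set_option linter.style.haveILetI false
set_option maxHeartbeats 1600000

noncomputable section

open AlgebraicCurve ModularCurve

namespace Fermat.Agent.H37.ORD

open Fermat.Agent.H72.FF Fermat.Agent.H18.ORD Fermat.Agent.H94.ORD

variable {N : ℕ} {A : ValuationSubring Qb} {Foo F0 : Type} [Field Foo] [Field F0]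
  [Algebra (kRes A) Foo] [Algebra (kRes A) F0] {ι : Type}

/-- **[CRT]**, chart `x` : a glued pair of functions on the two components, regular wherever
the reduction of `x` is regular, is the pair of reductions of an element of the chart ring
`B`. -/
def ChartCrt (G : NodalData N A Foo F0 ι) (x : FLb N) (B : Subring (FLb N))
    (hx : x ∈ G.Voo) (hx0 : x ∈ G.V0) : Prop :=
  ∀ (a : Foo) (b : F0),
    (∀ Q : Place (kRes A) Foo, 0 ≤ Q.ord (G.redOo ⟨x, hx⟩) → 0 ≤ Q.ord a) →
    (∀ Q : Place (kRes A) F0, 0 ≤ Q.ord (G.red0 ⟨x, hx0⟩) → 0 ≤ Q.ord b) →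
    IsGlued G a b →
    ∃ f ∈ B, ∃ (h : f ∈ G.Voo) (h0 : f ∈ G.V0), G.redOo ⟨f, h⟩ = a ∧ G.red0 ⟨f, h0⟩ = b

/-- **[CRT]**, chart `x⁻¹` : a pair of functions on the two components, regular wherever the
reduction of `x⁻¹` is regular and glued at the nodes of the chart `x⁻¹`, is the pair of
reductions of an element of the chart ring `B'`. -/
def ChartCrtInv (G : NodalData N A Foo F0 ι) (x : FLb N) (B' : Subring (FLb N))
    (hx : x ∈ G.Voo) (hx0 : x ∈ G.V0) : Prop :=
  ∀ (a : Foo) (b : F0),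
    (∀ Q : Place (kRes A) Foo, Q.ord (G.redOo ⟨x, hx⟩) ≤ 0 → 0 ≤ Q.ord a) →
    (∀ Q : Place (kRes A) F0, Q.ord (G.red0 ⟨x, hx0⟩) ≤ 0 → 0 ≤ Q.ord b) →
    (∀ ν : ι, (G.nOo ν).ord (G.redOo ⟨x, hx⟩) ≤ 0 → ∃ κ : kRes A,
      a - algebraMap (kRes A) Foo κ ∈ (G.nOo ν).toValuationSubring.nonunits ∧
      b - algebraMap (kRes A) F0 κ ∈ (G.n0 ν).toValuationSubring.nonunits) →
    ∃ f ∈ B', ∃ (h : f ∈ G.Voo) (h0 : f ∈ G.V0), G.redOo ⟨f, h⟩ = a ∧ G.red0 ⟨f, h0⟩ = b

/-- **[LIFT]** the chart lift (vanishing of the Čech `H¹` of the two charts), with a uniform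
exponent : for `n ≥ m`, sections `f ∈ B`, `f' ∈ B'` with `f ≡ xⁿ f'` on both components glue to
`F ∈ B ∩ xⁿ B'` with the same reductions as `f`. -/
def ChartLiftPair (G : NodalData N A Foo F0 ι) (x : FLb N) (B B' : Subring (FLb N))
    (hx : x ∈ G.Voo) (hx0 : x ∈ G.V0) : Prop :=
  ∃ m : ℕ, ∀ n : ℕ, m ≤ n → ∀ f ∈ B, ∀ f' ∈ B',
    ∀ (hf : f ∈ G.Voo) (hf0 : f ∈ G.V0) (hf' : f' ∈ G.Voo) (hf0' : f' ∈ G.V0),
    G.redOo ⟨f, hf⟩ = G.redOo ⟨x, hx⟩ ^ n * G.redOo ⟨f', hf'⟩ →
    G.red0 ⟨f, hf0⟩ = G.red0 ⟨x, hx0⟩ ^ n * G.red0 ⟨f', hf0'⟩ →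
    ∃ F ∈ B, x⁻¹ ^ n * F ∈ B' ∧ ∃ (hF : F ∈ G.Voo) (hF0 : F ∈ G.V0),
      G.redOo ⟨F, hF⟩ = G.redOo ⟨f, hf⟩ ∧ G.red0 ⟨F, hF0⟩ = G.red0 ⟨f, hf0⟩

/-- **The chart structure of a nodal reduction** (input of `anchorLift_of_charts`). -/
structure AnchorCharts (G : NodalData N A Foo F0 ι) (x : FLb N) (B B' : Subring (FLb N)) :
    Prop where
  /-- `x ∈ V_∞` -/
  x_oo : x ∈ G.Voo
  /-- `x ∈ V_0` -/
  x_zero : x ∈ G.V0
  /-- `red_∞ x ≠ 0` -/
  red_oo_ne : G.redOo ⟨x, x_oo⟩ ≠ 0
  /-- `red_0 x ≠ 0` -/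
  red_zero_ne : G.red0 ⟨x, x_zero⟩ ≠ 0
  /-- `x` has a pole -/
  pole : ∃ P : Place Qb (FLb N), P.ord x < 0
  /-- elements of `B` are regular where `x` is -/
  reg : ∀ f ∈ B, ∀ P : Place Qb (FLb N), 0 ≤ P.ord x → 0 ≤ P.ord f
  /-- elements of `B'` are regular where `x⁻¹` is -/
  reg' : ∀ f ∈ B', ∀ P : Place Qb (FLb N), P.ord x ≤ 0 → 0 ≤ P.ord f
  /-- the nodes lie in the chart `x` -/
  node_reg : ∀ P ν, G.r P = NPt.node ν → 0 ≤ P.ord x
  /-- poles of `x` specialise to poles of `red_∞ x` -/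
  spec_pole_oo : ∀ P Q, G.r P = NPt.oo Q → P.ord x < 0 → Q.ord (G.redOo ⟨x, x_oo⟩) < 0
  /-- zeros of `x` specialise to zeros of `red_∞ x` -/
  spec_zero_oo : ∀ P Q, G.r P = NPt.oo Q → 0 < P.ord x → 0 < Q.ord (G.redOo ⟨x, x_oo⟩)
  /-- poles of `x` specialise to poles of `red_0 x` -/
  spec_pole_zero : ∀ P Q, G.r P = NPt.zero Q → P.ord x < 0 → Q.ord (G.red0 ⟨x, x_zero⟩) < 0
  /-- zeros of `x` specialise to zeros of `red_0 x` -/
  spec_zero_zero : ∀ P Q, G.r P = NPt.zero Q → 0 < P.ord x → 0 < Q.ord (G.red0 ⟨x, x_zero⟩)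
  /-- `x` is glued at the nodes -/
  glue_x : IsGlued G (G.redOo ⟨x, x_oo⟩) (G.red0 ⟨x, x_zero⟩)
  /-- **[CRT]**, chart `x` -/
  crt : ChartCrt G x B x_oo x_zero
  /-- **[CRT]**, chart `x⁻¹` -/
  crt' : ChartCrtInv G x B' x_oo x_zero
  /-- **[LIFT]** the chart lift, with a uniform exponent -/
  lift : ChartLiftPair G x B B' x_oo x_zero

/-! ### Small lemmas on places -/

section place

variable {K F : Type*} [Field K] [Field F] [Algebra K F]

/-- congruence modulo the maximal ideal of a place: `a ≡ κ`, `x ≡ κ' ≠ 0` imply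
`a x⁻ⁿ ≡ κ κ'⁻ⁿ` -/
theorem anchor_cong_mul_inv_pow (v : Place K F) {a x : F} {κ κ' : K}
    (ha : a - algebraMap K F κ ∈ v.toValuationSubring.nonunits)
    (hx : x - algebraMap K F κ' ∈ v.toValuationSubring.nonunits) (hκ' : κ' ≠ 0) (n : ℕ) :
    a * x⁻¹ ^ n - algebraMap K F (κ * κ'⁻¹ ^ n) ∈ v.toValuationSubring.nonunits := by
  have h1 : Fermat.Agent.H94.FF.HasVal v a κ := by
    rcases (nb_mem_nonunits_iff v _).mp ha with h | h
    · exact Or.inl (sub_eq_zero.mp h)
    · exact Or.inr h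
  have h2 : Fermat.Agent.H94.FF.HasVal v x κ' := by
    rcases (nb_mem_nonunits_iff v _).mp hx with h | h
    · exact Or.inl (sub_eq_zero.mp h)
    · exact Or.inr h
  have h3 := h1.mul ((h2.inv hκ').pow n)
  rw [nb_mem_nonunits_iff]
  rcases h3 with h | h
  · exact Or.inl (sub_eq_zero.mpr h)
  · exact Or.inr h

/-- if `x ≡ κ` modulo the maximal ideal and `ord x ≤ 0` then `κ ≠ 0` -/
theorem anchor_const_ne_zero (v : Place K F) {x : F} {κ : K}
    (hx : x - algebraMap K F κ ∈ v.toValuationSubring.nonunits) (hx0 : x ≠ 0)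
    (hord : v.ord x ≤ 0) : κ ≠ 0 := by
  rintro rfl
  rw [map_zero, sub_zero, nb_mem_nonunits_iff] at hx
  rcases hx with h | h
  · exact hx0 h
  · omega

/-- if `x ≡ κ` modulo the maximal ideal then `0 ≤ ord x` -/
theorem anchor_ord_nonneg (v : Place K F) {x : F} {κ : K}
    (hx : x - algebraMap K F κ ∈ v.toValuationSubring.nonunits) : 0 ≤ v.ord x := by
  have h1 : Fermat.Agent.H94.FF.HasVal v x κ := by
    rcases (nb_mem_nonunits_iff v _).mp hx with h | h
    · exact Or.inl (sub_eq_zero.mp h)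
    · exact Or.inr h
  exact h1.ord_nonneg

end place

/-! ### The push-forward of the polar divisor -/

section comp

variable {L F k Fk X : Type*} [Field L] [Field F] [Algebra L F] [Field k] [Field Fk]
  [Algebra k Fk]
  {A' : ValuationSubring L} {π : A' →+* k} {V : Subring F} {red : V →+* Fk}
  {r : Place L F → X} {pt : Place k Fk → X} {smooth : Place k Fk → Prop}

/-- **[POLE]** on one component: the push-forward of the polar divisor `D₀` of `x` vanishes
where `red x` is regular, and is at most the pole order of `red x` elsewhere. -/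
theorem anchor_push_polar (H : CompHyp A' π V red r pt smooth) (x : V) (hx : red x ≠ 0)
    (D D₀ : Divisor L F) (hD : ∀ P, D P = P.ord (x : F))
    (hD₀ : ∀ P, D₀ P = max 0 (-(P.ord (x : F))))
    (hpole : ∀ P Q, r P = pt Q → P.ord (x : F) < 0 → Q.ord (red x) < 0)
    (hzero : ∀ P Q, r P = pt Q → 0 < P.ord (x : F) → 0 < Q.ord (red x))
    (hns : ∀ P Q, r P = pt Q → smooth Q) (Q : Place k Fk) :
    (0 ≤ Q.ord (red x) → Finsupp.mapDomain r D₀ (pt Q) = 0) ∧
      (Q.ord (red x) ≤ 0 → Finsupp.mapDomain r D₀ (pt Q) ≤ -(Q.ord (red x))) := by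
  classical
  constructor
  · intro hQ
    refine ordMove_mapDomain_eq_zero r D₀ (pt Q) fun P hP => ?_
    rw [hD₀]
    have h1 : 0 ≤ P.ord (x : F) := by
      by_contra hcon
      have := hpole P Q hP (by omega)
      omega
    exact max_eq_left (by omega)
  · intro hQ
    by_cases hfib : ∃ P, r P = pt Q
    · obtain ⟨P₁, hP₁⟩ := hfib
      have hsm : smooth Q := hns P₁ Q hP₁
      have h1 := H.cons x hx D hD Q hsm
      have h2 : Finsupp.mapDomain r (D₀ + D) (pt Q) = 0 := by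
        refine ordMove_mapDomain_eq_zero r (D₀ + D) (pt Q) fun P hP => ?_
        rw [Finsupp.add_apply, hD₀, hD]
        have h3 : P.ord (x : F) ≤ 0 := by
          by_contra hcon
          have := hzero P Q hP (by omega)
          omega
        rw [max_eq_right (by omega)]
        ring
      rw [Finsupp.mapDomain_add, Finsupp.add_apply, h1] at h2
      omega
    · have h0 : Finsupp.mapDomain r D₀ (pt Q) = 0 :=
        ordMove_mapDomain_eq_zero r D₀ (pt Q) fun P hP => absurd ⟨P, hP⟩ hfib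
      rw [h0]
      omega

/-- regularity on the chart `x` of an element of `L(n r_* D₀)` -/
theorem anchor_reg_chart (n : ℕ) (E : Divisor k Fk) (xb a : Fk) (Q : Place k Fk)
    (hE : 0 ≤ Q.ord xb → E Q = 0)
    (ha : a ∈ riemannRochSpace (n • E)) (hQ : 0 ≤ Q.ord xb) : 0 ≤ Q.ord a := by
  rcases (mem_riemannRochSpace_iff.mp ha) Q with h | h
  · rw [h, Place.ord_zero]
  · rw [Finsupp.smul_apply, hE hQ, smul_zero, neg_zero] at h
    exact h

/-- regularity on the chart `x⁻¹` of `a x⁻ⁿ` for `a ∈ L(n r_* D₀)` -/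
theorem anchor_reg_chart' (n : ℕ) (E : Divisor k Fk) (xb a : Fk) (hxb : xb ≠ 0)
    (Q : Place k Fk) (hE : Q.ord xb ≤ 0 → E Q ≤ -(Q.ord xb))
    (ha : a ∈ riemannRochSpace (n • E)) (hQ : Q.ord xb ≤ 0) :
    0 ≤ Q.ord (a * xb⁻¹ ^ n) := by
  rcases (mem_riemannRochSpace_iff.mp ha) Q with h | h
  · rw [h, zero_mul, Place.ord_zero]
  · have ha0 : a ≠ 0 ∨ a = 0 := (em _).symm
    rcases eq_or_ne a 0 with h0 | h0
    · rw [h0, zero_mul, Place.ord_zero]
    rw [Q.ord_mul h0 (pow_ne_zero _ (inv_ne_zero hxb)), nb_ord_pow, Q.ord_inv]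
    rw [Finsupp.smul_apply, nsmul_eq_mul] at h
    have h1 := hE hQ
    have h2 : (n : ℤ) * E Q ≤ (n : ℤ) * -(Q.ord xb) :=
      mul_le_mul_of_nonneg_left h1 (Int.natCast_nonneg n)
    nlinarith

end comp

/-- the polar divisor of a nonzero function -/
theorem anchor_exists_polar (hdiv : HasPrincipalDivisors Qb (FLb N)) (x : FLb N)
    (hx : x ≠ 0) :
    ∃ D D₀ : Divisor Qb (FLb N), (∀ P, D P = P.ord x) ∧ ∀ P, D₀ P = max 0 (-(P.ord x)) := by
  obtain ⟨D, hD, -⟩ := hdiv.exists_divisor x hx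
  refine ⟨D, D.mapRange (fun n => max 0 (-n)) (by simp), hD, fun P => ?_⟩
  rw [Finsupp.mapRange_apply, hD]

/-! ### The anchor lift -/

/-- **[ANCHOR]** (abstract form): a chart structure on a nodal reduction gives
`AnchorLift G`, with `D₀` the polar divisor of the chart function. -/
theorem anchorLift_of_charts {p : ℕ} {G : NodalData N A Foo F0 ι} (H : NodalRvHyp p G)
    (hdiv : HasPrincipalDivisors Qb (FLb N)) (hdeg : ∀ v : Place Qb (FLb N), v.deg = 1)
    {x : FLb N} {B B' : Subring (FLb N)} (C : AnchorCharts G x B B') : AnchorLift G := by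
  classical
  obtain ⟨P₀, hP₀⟩ := C.pole
  have hx0 : x ≠ 0 := by
    rintro rfl
    rw [Place.ord_zero] at hP₀
    exact lt_irrefl _ hP₀
  obtain ⟨D, D₀, hD, hD₀⟩ := anchor_exists_polar hdiv x hx0
  set xoo : Foo := G.redOo ⟨x, C.x_oo⟩ with hxoo
  set xz : F0 := G.red0 ⟨x, C.x_zero⟩ with hxz
  have hpushOo := fun Q => anchor_push_polar (H.compOo hdiv) ⟨x, C.x_oo⟩ C.red_oo_ne D D₀ hD hD₀
    C.spec_pole_oo C.spec_zero_oo (fun P Q h => H.r_oo P Q h) Q
  have hpushZ := fun Q => anchor_push_polar (H.compZero hdiv) ⟨x, C.x_zero⟩ C.red_zero_ne D D₀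
    hD hD₀ C.spec_pole_zero C.spec_zero_zero (fun P Q h => H.r_zero P Q h) Q
  refine ⟨D₀, ?_, ?_, ?_⟩
  · intro P ν hP
    rw [hD₀]
    have := C.node_reg P ν hP
    exact max_eq_left (by omega)
  · have h1 : Finsupp.single P₀ (1 : ℤ) ≤ D₀ := by
      rw [Finsupp.le_def]
      intro P
      rw [Finsupp.single_apply, hD₀]
      split_ifs with h
      · subst h
        exact le_max_of_le_right (by omega)
      · exact le_max_left _ _
    have h2 := Fermat.Agent.H58.rr_degree_nonneg (D₀ - Finsupp.single P₀ 1) (sub_nonneg.mpr h1)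
    rw [map_sub, Divisor.degree_single, hdeg P₀] at h2
    simp only [Nat.cast_one, mul_one, sub_nonneg] at h2
    omega
  · obtain ⟨m, hm⟩ := C.lift
    refine ⟨m, fun n hn z hz => ?_⟩
    obtain ⟨hz1, hz2, hzg⟩ := mem_gluedSpace.mp hz
    -- the pushed divisors
    have hEoo : ∀ Q : Place (kRes A) Foo, pushOo G (n • D₀) Q = (n • pushOo G D₀) Q := by
      intro Q
      rw [pushOo_apply, Finsupp.mapDomain_smul, Finsupp.smul_apply, Finsupp.smul_apply,
        pushOo_apply]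
    have hEz : ∀ Q : Place (kRes A) F0, pushZero G (n • D₀) Q = (n • pushZero G D₀) Q := by
      intro Q
      rw [pushZero_apply, Finsupp.mapDomain_smul, Finsupp.smul_apply, Finsupp.smul_apply,
        pushZero_apply]
    have hz1' : z.1 ∈ riemannRochSpace (n • pushOo G D₀) := by
      have : pushOo G (n • D₀) = n • pushOo G D₀ := Finsupp.ext hEoo
      rw [← this]; exact hz1
    have hz2' : z.2 ∈ riemannRochSpace (n • pushZero G D₀) := by
      have : pushZero G (n • D₀) = n • pushZero G D₀ := Finsupp.ext hEz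
      rw [← this]; exact hz2
    -- chart `x`
    obtain ⟨f, hfB, hf, hf0, hfa, hfb⟩ := C.crt z.1 z.2
      (fun Q hQ => anchor_reg_chart n (pushOo G D₀) xoo z.1 Q
        (fun h => by rw [pushOo_apply]; exact (hpushOo Q).1 h) hz1' hQ)
      (fun Q hQ => anchor_reg_chart n (pushZero G D₀) xz z.2 Q
        (fun h => by rw [pushZero_apply]; exact (hpushZ Q).1 h) hz2' hQ)
      hzg
    -- chart `x⁻¹`
    obtain ⟨f', hfB', hf', hf0', hfa', hfb'⟩ := C.crt' (z.1 * xoo⁻¹ ^ n) (z.2 * xz⁻¹ ^ n)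
      (fun Q hQ => anchor_reg_chart' n (pushOo G D₀) xoo z.1 C.red_oo_ne Q
        (fun h => by rw [pushOo_apply]; exact (hpushOo Q).2 h) hz1' hQ)
      (fun Q hQ => anchor_reg_chart' n (pushZero G D₀) xz z.2 C.red_zero_ne Q
        (fun h => by rw [pushZero_apply]; exact (hpushZ Q).2 h) hz2' hQ)
      (by
        intro ν hν
        obtain ⟨κ, hκ1, hκ2⟩ := hzg ν
        obtain ⟨κx, hκx1, hκx2⟩ := C.glue_x ν
        have hκx0 : κx ≠ 0 := anchor_const_ne_zero (G.nOo ν) hκx1 C.red_oo_ne hν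
        refine ⟨κ * κx⁻¹ ^ n, ?_, ?_⟩
        · exact anchor_cong_mul_inv_pow (G.nOo ν) hκ1 hκx1 hκx0 n
        · exact anchor_cong_mul_inv_pow (G.n0 ν) hκ2 hκx2 hκx0 n)
    -- the chart lift
    obtain ⟨F, hFB, hFB', hF, hF0, hFa, hFb⟩ := hm n hn f hfB f' hfB' hf hf0 hf' hf0'
      (by
        rw [hfa, hfa', ← hxoo, mul_comm (z.1) _, ← mul_assoc, ← mul_pow,
          mul_inv_cancel₀ C.red_oo_ne, one_pow, one_mul])
      (by
        rw [hfb, hfb', ← hxz, mul_comm (z.2) _, ← mul_assoc, ← mul_pow,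
          mul_inv_cancel₀ C.red_zero_ne, one_pow, one_mul])
    refine ⟨F, hF, hF0, ?_, by rw [hFa, hfa], by rw [hFb, hfb]⟩
    rw [mem_riemannRochSpace_iff]
    intro P
    rcases eq_or_ne F 0 with hF0' | hF0'
    · exact Or.inl hF0'
    right
    rw [Finsupp.smul_apply, hD₀, nsmul_eq_mul]
    rcases le_or_gt 0 (P.ord x) with hP | hP
    · have h1 := C.reg F hFB P hP
      rw [max_eq_left (by omega), mul_zero, neg_zero]
      exact h1
    · have h1 := C.reg' _ hFB' P hP.le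
      rw [P.ord_mul (pow_ne_zero _ (inv_ne_zero hx0)) hF0', nb_ord_pow, P.ord_inv] at h1
      rw [max_eq_right (by omega)]
      nlinarith

end Fermat.Agent.H37.ORD

end
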