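/-
P-ORD, block B1-ANCHOR (helper37; findings #569): the CONSUMER Props of the anchor lift for the
concrete nodal data `nmG` of `X₀(M p)` (helper84).

Chart function `x = j = nmJ (M p)`, charts `B̄(j) = nmChart (M p) A j`,
`B̄(j⁻¹) = nmChart (M p) A j⁻¹`.

* `NmCrtStatement M p`      : **[CRT]** for the chart `j`     (= `ChartCrt` for `nmG`);
* `NmCrtInvStatement M p`   : **[CRT]** for the chart `j⁻¹`   (= `ChartCrtInv` for `nmG`);
* `NmChartLiftStatement M p`: **[LIFT]** the chart lift with a uniform exponent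
  (= `ChartLiftPair` for `nmG`);
* `NmAnchorStatement M p`   : the target, `AnchorLift (nmG htot)`.

The membership proofs `hj : j ∈ V_∞`, `hj0 : j ∈ V_0` are universally quantified (proof
irrelevant); they exist by `Fermat.Agent.H84.ORD.nmChartSoft`.
-/
import Fermat.Agent.H37.ORD.AnchorAbs
import Fermat.Agent.H84.ORD.NodalModelAPI

set_option autoImplicit false
set_option linter.unusedSectionVars false

noncomputable section

open AlgebraicCurve ModularCurve

namespace Fermat.Agent.H37.ORD

open Fermat.Agent.H72.FF Fermat.Agent.H18.ORD Fermat.Agent.H84.ORD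

/-- **[CRT], chart `j`** for `nmG` : a glued pair `(a, b)` of functions on the two components,
regular at every place where the reduction of `j` is regular, is `(red_∞ f, red_0 f)` for some
`f ∈ B̄(j)`. -/
def NmCrtStatement (M p : ℕ) [NeZero M] [NeZero p] : Prop :=
  ∀ (A : ValuationSubring Qb) (h : NmSetup M p A) (htot : NmTot M p h.cop A)
    (hj : nmJ (M * p) ∈ (nmG htot).Voo) (hj0 : nmJ (M * p) ∈ (nmG htot).V0),
    ChartCrt (nmG htot) (nmJ (M * p)) (nmChart (M * p) A (nmJ (M * p))) hj hj0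

/-- **[CRT], chart `j⁻¹`** for `nmG` : a pair `(a, b)` of functions on the two components,
regular at every place where the reduction of `j⁻¹` is regular and glued at the nodes `ν` with
`j(ν) ≠ 0`, is `(red_∞ f, red_0 f)` for some `f ∈ B̄(j⁻¹)`. -/
def NmCrtInvStatement (M p : ℕ) [NeZero M] [NeZero p] : Prop :=
  ∀ (A : ValuationSubring Qb) (h : NmSetup M p A) (htot : NmTot M p h.cop A)
    (hj : nmJ (M * p) ∈ (nmG htot).Voo) (hj0 : nmJ (M * p) ∈ (nmG htot).V0),
    ChartCrtInv (nmG htot) (nmJ (M * p)) (nmChart (M * p) A (nmJ (M * p))⁻¹) hj hj0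

/-- **[LIFT]** for `nmG` : there is `m` such that for all `n ≥ m`, `f ∈ B̄(j)`, `f' ∈ B̄(j⁻¹)`
with `red f = (red j)ⁿ red f'` on both components, some `F ∈ B̄(j)` with `j⁻ⁿ F ∈ B̄(j⁻¹)` has
the same two reductions as `f`. -/
def NmChartLiftStatement (M p : ℕ) [NeZero M] [NeZero p] : Prop :=
  ∀ (A : ValuationSubring Qb) (h : NmSetup M p A) (htot : NmTot M p h.cop A)
    (hj : nmJ (M * p) ∈ (nmG htot).Voo) (hj0 : nmJ (M * p) ∈ (nmG htot).V0),
    ChartLiftPair (nmG htot) (nmJ (M * p)) (nmChart (M * p) A (nmJ (M * p)))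
      (nmChart (M * p) A (nmJ (M * p))⁻¹) hj hj0

/-- **[ANCHOR]** the target : `AnchorLift` for `nmG`. -/
def NmAnchorStatement (M p : ℕ) [NeZero M] [NeZero p] : Prop :=
  ∀ (A : ValuationSubring Qb) (h : NmSetup M p A) (htot : NmTot M p h.cop A),
    AnchorLift (nmG htot)

end Fermat.Agent.H37.ORD

end
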