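/-
P-ORD, block B1-ANCHOR (helper37): the [CRT] inputs of the anchor lift are CLOSED by helper17's
`Fermat.Agent.H17.ORD.nmCrt` (adapters to the consumer Props of `AnchorNmDefs`), and the anchor
lift for `nmG` is reduced to the chart lift [LIFT]:

`nmAnchor_of_chartLift` : `NmRvHypStatement → NmDvrOoStatement → NmDvrZeroStatement →
  NmCrossStatement → NmChartLiftStatement → NmAnchorStatement`.
-/
import Fermat.Agent.H37.ORD.AnchorNm
import Fermat.Agent.H17.ORD.CrtGlobal

set_option autoImplicit false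
set_option linter.unusedSectionVars false
set_option linter.unusedVariables false
set_option linter.style.haveILetI false
set_option maxHeartbeats 1600000

noncomputable section

open AlgebraicCurve ModularCurve

namespace Fermat.Agent.H37.ORD

open Fermat.Agent.H72.FF Fermat.Agent.H18.ORD Fermat.Agent.H84.ORD Fermat.Agent.H66

section place

variable {K F : Type*} [Field K] [Field F] [Algebra K F]

theorem anchor_mem_of_ord (Q : Place K F) {z : F} (h : 0 ≤ Q.ord z) :
    z ∈ Q.toValuationSubring :=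
  (Fermat.Agent.H23.mem_iff_ord Q).mpr (Or.inr h)

theorem anchor_ord_of_mem (Q : Place K F) {z : F} (h : z ∈ Q.toValuationSubring) :
    0 ≤ Q.ord z := by
  rcases (Fermat.Agent.H23.mem_iff_ord Q).mp h with h0 | h0
  · rw [h0, Place.ord_zero]
  · exact h0

end place

variable {M p : ℕ} [NeZero M] [NeZero p]

/-- **[CRT], chart `j`** in the consumer shape, from helper17's statement. -/
theorem nmCrt_of_h17 (hC : Fermat.Agent.H17.ORD.NmCrtStatement M p) : NmCrtStatement M p := by
  intro A h htot hj hj0 a b ha hb hglue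
  refine hC A h (nmJ (M * p)) (Or.inl rfl) hj hj0 a b ⟨?_, ?_, ?_⟩
  · intro Q hQ
    exact anchor_mem_of_ord Q (ha Q (anchor_ord_of_mem Q hQ))
  · intro Q hQ
    exact anchor_mem_of_ord Q (hb Q (anchor_ord_of_mem Q hQ))
  · intro ν _
    exact hglue ν

/-- **[CRT], chart `j⁻¹`** in the consumer shape, from helper17's statement. -/
theorem nmCrtInv_of_h17 (hC : Fermat.Agent.H17.ORD.NmCrtStatement M p) :
    NmCrtInvStatement M p := by
  intro A h htot hj hj0 a b ha hb hglue
  have H : NmBase M p A := nmBase_of_soft (Fermat.Agent.H20.ORD.nmSoft M p) h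
  have e1 : nmRedOo (M * p) A ⟨(nmJ (M * p))⁻¹, H.oo.jinv_mem⟩ =
      (nmRedOo (M * p) A ⟨nmJ (M * p), hj⟩)⁻¹ := CompSoft_red_jinv H.oo
  have e2 : nmRed0 M p h.cop A ⟨(nmJ (M * p))⁻¹, H.zero.jinv_mem⟩ =
      (nmRed0 M p h.cop A ⟨nmJ (M * p), hj0⟩)⁻¹ := CompSoft_red_jinv H.zero
  refine hC A h (nmJ (M * p))⁻¹ (Or.inr rfl) H.oo.jinv_mem H.zero.jinv_mem a b ⟨?_, ?_, ?_⟩
  · intro Q hQ
    rw [e1] at hQ
    have h1 := anchor_ord_of_mem Q hQ
    rw [Place.ord_inv] at h1
    exact anchor_mem_of_ord Q (ha Q (by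
      show Q.ord (nmRedOo (M * p) A ⟨nmJ (M * p), hj⟩) ≤ 0
      omega))
  · intro Q hQ
    rw [e2] at hQ
    have h1 := anchor_ord_of_mem Q hQ
    rw [Place.ord_inv] at h1
    exact anchor_mem_of_ord Q (hb Q (by
      show Q.ord (nmRed0 M p h.cop A ⟨nmJ (M * p), hj0⟩) ≤ 0
      omega))
  · intro ν hν
    rw [e1] at hν
    have h1 := anchor_ord_of_mem _ hν
    rw [Place.ord_inv] at h1
    exact hglue ν (by
      show (nmNOo M p h.cop A ν).ord (nmRedOo (M * p) A ⟨nmJ (M * p), hj⟩) ≤ 0
      omega)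

/-- **[ANCHOR] for `X₀(M p)`, reduced to the chart lift** : [CRT] on both charts is
helper17's `nmCrt`, the soft facts are helper20's `nmSoft`. -/
theorem nmAnchor_of_chartLift (hR : NmRvHypStatement M p) (hDo : NmDvrOoStatement M p)
    (hDz : NmDvrZeroStatement M p) (hXY : NmCrossStatement M p)
    (hL : NmChartLiftStatement M p) : NmAnchorStatement M p :=
  nmAnchor (Fermat.Agent.H20.ORD.nmSoft M p) hR hXY
    (nmCrt_of_h17 (Fermat.Agent.H17.ORD.nmCrt M p hDo hDz hXY))
    (nmCrtInv_of_h17 (Fermat.Agent.H17.ORD.nmCrt M p hDo hDz hXY)) hL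

end Fermat.Agent.H37.ORD

end
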