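/-
P-ORD, block B1-ANCHOR (helper37): THE CHART LIFT [LIFT] FOR THE CONCRETE MODEL `nmG`, reduced to
the two leaves [FIN] and [L3bar] of the chart `B̄(j) = nmChart (M p) A j`.

* `NmChartFgStatement M p`  : **[FIN]** `B̄(j)` is spanned over `A[j]` by finitely many elements
  (polynomial, instance-free form);
* `NmChartL3Statement M p`  : **[L3bar]** an element of `B̄(j)` reducing to `0` on both
  components is `ε t` with `ε ∈ 𝔪_A`, `t ∈ B̄(j)`  (shape of helper92 / helper32, with
  `Fermat.Agent.H92.ORD.InMoo`, `InMzero`);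
* `nmChartFin_of_fg`        : the uniform exponent is automatic (overlap of the charts);
* `nmChartFg_of_span`       : adapter from the span form over `Algebra.adjoin ↥A {j}` for ANY
  algebra instance `↥A → F` compatible with the constants;
* `nmChartLift_of_fin_l3`   : `[FIN] + [L3bar] ⟹ NmChartLiftStatement M p`
  (helper94's abstract assembly `chartLiftPair_of_fin_sat` + the soft facts of `nmG`);
* `nmAnchor_of_fin_l3`      : `[RV] + [DVR] + [XY] + [FIN] + [L3bar] ⟹ NmAnchorStatement M p`.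
-/
import Fermat.Agent.H37.ORD.AnchorCrt
import Fermat.Agent.H94.ORD.NmChartLift
import Fermat.Agent.H92.ORD.BcSat

set_option autoImplicit false
set_option linter.unusedSectionVars false
set_option linter.unusedVariables false
set_option linter.style.haveILetI false
set_option maxHeartbeats 1600000

noncomputable section

open AlgebraicCurve ModularCurve

namespace Fermat.Agent.H37.ORD

open Fermat.Agent.H72.FF Fermat.Agent.H18.ORD Fermat.Agent.H84.ORD Fermat.Agent.H66

/-! ### Span form versus polynomial form -/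

section Span

variable {N : ℕ} {A : ValuationSubring Qb}

/-- an element of `A[x]` is a polynomial in `x` with coefficients in `A` -/
theorem lift_adjoin_poly (inst : Algebra ↥A (FLb N))
    (hcompat : ∀ a : ↥A, algebraMap ↥A (FLb N) a = algebraMap Qb (FLb N) (a : Qb))
    (x : FLb N) {r : FLb N} (hr : r ∈ Algebra.adjoin ↥A ({x} : Set (FLb N))) :
    ∃ (d : ℕ) (c : ℕ → Qb), (∀ i, c i ∈ A) ∧
      r = ∑ i ∈ Finset.range d, algebraMap Qb (FLb N) (c i) * x ^ i := by
  rw [Algebra.adjoin_singleton_eq_range_aeval] at hr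
  obtain ⟨q, rfl⟩ := hr
  refine ⟨q.natDegree + 1, fun i => ((q.coeff i : ↥A) : Qb), fun i => (q.coeff i).2, ?_⟩
  show Polynomial.aeval x q = _
  rw [Polynomial.aeval_eq_sum_range]
  refine Finset.sum_congr rfl (fun i _ => ?_)
  rw [Algebra.smul_def, hcompat]

/-- padding a polynomial expression with zero coefficients -/
theorem lift_pad (x : FLb N) (d D : ℕ) (hd : d ≤ D) (c : ℕ → Qb) :
    ∑ i ∈ Finset.range D, algebraMap Qb (FLb N) (if i < d then c i else 0) * x ^ i =
      ∑ i ∈ Finset.range d, algebraMap Qb (FLb N) (c i) * x ^ i := by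
  symm
  rw [← Finset.sum_subset (Finset.range_mono hd)]
  · refine Finset.sum_congr rfl (fun i hi => ?_)
    rw [if_pos (Finset.mem_range.1 hi)]
  · intro i _ hi
    rw [if_neg (fun h => hi (Finset.mem_range.2 h)), map_zero, zero_mul]

/-- **span form ⟹ polynomial form** : an element of the `A[x]`-span of a finite set `s` is a
combination of the elements of `s` with polynomial coefficients of a common degree bound. -/
theorem lift_span_poly (inst : Algebra ↥A (FLb N))
    (hcompat : ∀ a : ↥A, algebraMap ↥A (FLb N) a = algebraMap Qb (FLb N) (a : Qb))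
    (x : FLb N) (s : Finset (FLb N)) {f : FLb N}
    (hf : f ∈ Submodule.span (Algebra.adjoin ↥A ({x} : Set (FLb N))) (s : Set (FLb N))) :
    ∃ (d : ℕ) (c : FLb N → ℕ → Qb), (∀ b i, c b i ∈ A) ∧
      f = ∑ b ∈ s, (∑ i ∈ Finset.range d, algebraMap Qb (FLb N) (c b i) * x ^ i) * b := by
  classical
  obtain ⟨g, -, hg⟩ := Submodule.mem_span_finset.1 hf
  have hpoly : ∀ b : FLb N, ∃ (d : ℕ) (c : ℕ → Qb), (∀ i, c i ∈ A) ∧
      ((g b : Algebra.adjoin ↥A ({x} : Set (FLb N))) : FLb N) =
        ∑ i ∈ Finset.range d, algebraMap Qb (FLb N) (c i) * x ^ i :=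
    fun b => lift_adjoin_poly inst hcompat x (g b).2
  choose d c hcA hc using hpoly
  refine ⟨s.sup d, fun b i => if i < d b then c b i else 0, ?_, ?_⟩
  · intro b i
    show (if i < d b then c b i else 0) ∈ A
    by_cases h : i < d b
    · rw [if_pos h]; exact hcA b i
    · rw [if_neg h]; exact A.zero_mem
  · rw [← hg]
    refine Finset.sum_congr rfl (fun b hb => ?_)
    show g b • b = (∑ i ∈ Finset.range (s.sup d),
      algebraMap Qb (FLb N) (if i < d b then c b i else 0) * x ^ i) * b
    rw [lift_pad x (d b) (s.sup d) (Finset.le_sup hb) (c b), ← hc b]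
    rfl

end Span

/-! ### The leaves [FIN] and [L3bar] for the concrete model -/

section Defs

variable (M p : ℕ) [NeZero M] [NeZero p]

/-- **[FIN], finite generation** : the chart `B̄(j)` is spanned over `A[j]` by a finite set
(polynomial, instance-free form). -/
def NmChartFgStatement : Prop :=
  ∀ (A : ValuationSubring Qb) (_ : NmSetup M p A),
    ∃ s : Finset (FLb (M * p)), (∀ b ∈ s, b ∈ nmChart (M * p) A (nmJ (M * p))) ∧
      ∀ f ∈ nmChart (M * p) A (nmJ (M * p)), ∃ (d : ℕ) (c : FLb (M * p) → ℕ → Qb),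
        (∀ b i, c b i ∈ A) ∧
        f = ∑ b ∈ s, (∑ i ∈ Finset.range d,
          algebraMap Qb (FLb (M * p)) (c b i) * nmJ (M * p) ^ i) * b

/-- **[FIN]** in the shape of helper94's `ChartFin` (with the uniform exponent). -/
def NmChartFinStatement : Prop :=
  ∀ (A : ValuationSubring Qb) (_ : NmSetup M p A),
    Fermat.Agent.H94.ORD.ChartFin A (nmJ (M * p)) (nmChart (M * p) A (nmJ (M * p)))
      (nmChart (M * p) A (nmJ (M * p))⁻¹)

/-- **[L3bar]** for the chart `j` : `𝔪_∞ ∩ 𝔪_0 ∩ B̄(j) = 𝔪_A B̄(j)`. -/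
def NmChartL3Statement : Prop :=
  ∀ (A : ValuationSubring Qb) (h : NmSetup M p A) (g : FLb (M * p)),
    g ∈ nmChart (M * p) A (nmJ (M * p)) → Fermat.Agent.H92.ORD.InMoo (M * p) A g →
    Fermat.Agent.H92.ORD.InMzero M p h.cop A g →
    ∃ ε ∈ A.nonunits, ∃ t ∈ nmChart (M * p) A (nmJ (M * p)),
      g = algebraMap Qb (FLb (M * p)) ε * t

end Defs

section Main

variable {M p : ℕ} [NeZero M] [NeZero p]

/-- a common exponent for the overlap of the charts on a finite set -/
theorem lift_overlap_finset {N : ℕ} (A : ValuationSubring Qb) {y : FLb N} (hy : y ≠ 0)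
    (s : Finset (FLb N)) (hs : ∀ b ∈ s, b ∈ nmChart N A y) :
    ∃ m : ℕ, ∀ b ∈ s, y⁻¹ ^ m * b ∈ nmChart N A y⁻¹ := by
  classical
  induction s using Finset.induction_on with
  | empty => exact ⟨0, fun b hb => absurd hb (Finset.notMem_empty b)⟩
  | insert a s ha ih =>
    obtain ⟨k₁, hk₁⟩ := ih fun b hb => hs b (Finset.mem_insert_of_mem hb)
    obtain ⟨k₂, hk₂⟩ := Fermat.Agent.H17.ORD.crt_overlap_ge A hy
      (hs a (Finset.mem_insert_self a s))
    refine ⟨k₁ + k₂, fun b hb => ?_⟩
    rcases Finset.mem_insert.1 hb with rfl | hb'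
    · exact hk₂ _ (Nat.le_add_left _ _)
    · have e : y⁻¹ ^ (k₁ + k₂) * b = y⁻¹ ^ k₂ * (y⁻¹ ^ k₁ * b) := by rw [pow_add]; ring
      rw [e]
      exact (nmChart N A y⁻¹).mul_mem
        ((nmChart N A y⁻¹).pow_mem (self_mem_nmChart A y⁻¹) k₂) (hk₁ b hb')

/-- **[FIN] from finite generation** : the uniform exponent is automatic. -/
theorem nmChartFin_of_fg (hFg : NmChartFgStatement M p) : NmChartFinStatement M p := by
  intro A h
  obtain ⟨s, hs, hspan⟩ := hFg A h
  obtain ⟨m, hm⟩ := lift_overlap_finset A (nm_j_ne_zero (M * p)) s hs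
  exact ⟨s, m, hs, hm, hspan⟩

/-- **[FIN] from the span form**, for any algebra structure `↥A → F` compatible with the
constants (shape of helper92's `nmChartFin`; the exponent part of his statement is not needed). -/
theorem nmChartFg_of_span
    (hspan : ∀ (A : ValuationSubring Qb) (_ : NmSetup M p A),
      ∃ (inst : Algebra ↥A (FLb (M * p)))
        (_ : ∀ a : ↥A, algebraMap ↥A (FLb (M * p)) a = algebraMap Qb (FLb (M * p)) (a : Qb))
        (s : Finset (FLb (M * p))), (∀ b ∈ s, b ∈ nmChart (M * p) A (nmJ (M * p))) ∧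
        ∀ f ∈ nmChart (M * p) A (nmJ (M * p)),
          f ∈ Submodule.span (Algebra.adjoin ↥A ({nmJ (M * p)} : Set (FLb (M * p))))
            (s : Set (FLb (M * p)))) :
    NmChartFgStatement M p := by
  intro A h
  obtain ⟨inst, hcompat, s, hs, hsp⟩ := hspan A h
  exact ⟨s, hs, fun f hf => lift_span_poly inst hcompat _ s (hsp f hf)⟩

/-- **[L3bar]** in the shape of helper94's `ChartSat` for `nmG`. -/
theorem nmChartSat_of_l3 (hL3 : NmChartL3Statement M p) {A : ValuationSubring Qb}
    (h : NmSetup M p A) (htot : NmTot M p h.cop A) :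
    Fermat.Agent.H94.ORD.ChartSat (nmG htot) (nmChart (M * p) A (nmJ (M * p))) := by
  rintro g hg ⟨hoo, hroo⟩ ⟨hz, hrz⟩
  refine hL3 A h g hg ⟨hoo, ?_⟩ ⟨hz, hrz⟩
  exact (nmRedOo_eq_zero_iff (M * p) A ⟨g, hoo⟩).1 hroo

/-- **THE CHART LIFT FOR `nmG`** : `[FIN] + [L3bar] ⟹ NmChartLiftStatement M p`. -/
theorem nmChartLift_of_fin_l3 (hFin : NmChartFinStatement M p)
    (hL3 : NmChartL3Statement M p) : NmChartLiftStatement M p := by
  intro A h htot hj hj0
  have H : NmBase M p A := nmBase_of_soft (Fermat.Agent.H20.ORD.nmSoft M p) h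
  have hx_ne : nmJ (M * p) ≠ 0 := nm_j_ne_zero (M * p)
  refine Fermat.Agent.H94.ORD.chartLiftPair_of_fin_sat (nmG htot) (nmJ (M * p))
    (nmChart (M * p) A (nmJ (M * p))) (nmChart (M * p) A (nmJ (M * p))⁻¹) hj hj0
    (fun a ha => H.oo.const_mem a ha) (fun a ha => H.zero.const_mem a ha)
    (fun a ha => H.oo.red_const a ha) (fun a ha => H.zero.red_const a ha)
    (fun a ha => algebraMap_mem_nmChart A _ ha) (fun a ha => algebraMap_mem_nmChart A _ ha)
    (self_mem_nmChart A _) (self_mem_nmChart A _) hx_ne ?_ ?_ (hFin A h)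
    (nmChartSat_of_l3 hL3 h htot)
  · intro f hf
    exact ⟨nmChart_le A H.oo.val (fun c hc => H.oo.const_mem c hc) H.oo.j_mem hf,
      nmChart_le A H.zero.val (fun c hc => H.zero.const_mem c hc) H.zero.j_mem hf⟩
  · intro f' hf'
    obtain ⟨k, hk⟩ := Fermat.Agent.H17.ORD.crt_overlap A (inv_ne_zero hx_ne) hf'
    rw [inv_inv] at hk
    exact ⟨k, hk⟩

/-- **[ANCHOR] for `X₀(M p)`, reduced to [FIN] and [L3bar]**. -/
theorem nmAnchor_of_fin_l3 (hR : NmRvHypStatement M p) (hDo : NmDvrOoStatement M p)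
    (hDz : NmDvrZeroStatement M p) (hXY : NmCrossStatement M p)
    (hFin : NmChartFinStatement M p) (hL3 : NmChartL3Statement M p) :
    NmAnchorStatement M p :=
  nmAnchor_of_chartLift hR hDo hDz hXY (nmChartLift_of_fin_l3 hFin hL3)

end Main

end Fermat.Agent.H37.ORD

end
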