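/-
Row 1152 (P-ORD, N-SEP), helper37: a separating element for a function field satisfying the
Riemann hypothesis package `H58.RRHyp` over an algebraically closed constant field.

* `transcendental_exists_of_rrHyp`: `F` contains an element transcendental over `K`;
* `finiteDimensional_adjoin_of_rrHyp`: `F / K(x)` is finite for every transcendental `x`;
* `exists_sep_of_rrHyp`: there is `x` with `F / K(x)` finite and separable.
-/
import Mathlib
import Fermat.Agent.H58.RR.Growth

set_option autoImplicit false
set_option linter.style.haveILetI false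

noncomputable section

open AlgebraicCurve IntermediateField

namespace Fermat.Agent.H37.ORD

open Fermat.Agent.H58

/-- Over an algebraically closed field, an algebraic element of an extension field is a
constant. -/
theorem sep_mem_range_of_isAlgebraic {K F : Type*} [Field K] [Field F] [Algebra K F]
    [IsAlgClosed K] {x : F} (hx : IsAlgebraic K x) : x ∈ (algebraMap K F).range := by
  have hint : IsIntegral K x := hx.isIntegral
  have hirr : Irreducible (minpoly K x) := minpoly.irreducible hint
  have hdeg : (minpoly K x).degree = 1 := IsAlgClosed.degree_eq_one_of_irreducible K hirr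
  exact minpoly.mem_range_of_degree_eq_one K x hdeg

/-- Under `RRHyp`, over an algebraically closed constant field, the function field contains a
transcendental element. -/
theorem transcendental_exists_of_rrHyp {K F : Type*} [Field K] [Field F] [Algebra K F]
    [IsAlgClosed K] (h : RRHyp K F) : ∃ x : F, Transcendental K x := by
  classical
  by_contra hcon
  push Not at hcon
  have halg : ∀ x : F, x ∈ (algebraMap K F).range := fun x =>
    sep_mem_range_of_isAlgebraic (by
      have := hcon x
      rwa [Transcendental, not_not] at this)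
  obtain ⟨B, γ, hB, hgrow⟩ := h.growth
  set m : ℕ := (γ + 2).toNat with hm
  have hle : riemannRochSpace (m • B) ≤ Submodule.span K {(1 : F)} := by
    intro f _
    obtain ⟨c, rfl⟩ := halg f
    rw [Submodule.mem_span_singleton]
    exact ⟨c, by rw [Algebra.smul_def, mul_one]⟩
  have h1 : Module.finrank K (riemannRochSpace (m • B)) ≤ 1 := by
    have h2 := Submodule.finrank_mono hle
    have h3 : Module.finrank K (Submodule.span K {(1 : F)}) = 1 :=
      finrank_span_singleton one_ne_zero
    omega
  have h4 := hgrow m
  have h5 : γ + 2 ≤ (m : ℤ) := by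
    rw [hm]; exact Int.self_le_toNat _
  have h6 : (m : ℤ) ≤ (m : ℤ) * Divisor.degree B := by
    have : (0 : ℤ) ≤ (m : ℤ) := Int.natCast_nonneg m
    nlinarith
  have h7 : (Module.finrank K (riemannRochSpace (m • B)) : ℤ) ≤ 1 := by exact_mod_cast h1
  linarith

/-- Under `RRHyp`, the function field is finite over `K(x)` for every transcendental `x`. -/
theorem finiteDimensional_adjoin_of_rrHyp {K F : Type*} [Field K] [Field F] [Algebra K F]
    (h : RRHyp K F) {x : F} (hx : Transcendental K x) : FiniteDimensional K⟮x⟯ F := by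
  classical
  haveI := h.principal
  obtain ⟨v₀⟩ := h.exists_place
  have hdeg := h.deg_one
  have hx0 : x ≠ 0 := fun h0 => hx (h0 ▸ isAlgebraic_zero)
  -- a pole bound for `x`
  obtain ⟨B, hB0, hB⟩ := rr_exists_common_divisor (K := K) ({x} : Finset F) (fun y => y)
  have hxB : x ∈ riemannRochSpace B := hB x (Finset.mem_singleton_self x)
  have hBx : ∀ v : Place K F, -B v ≤ v.ord x := fun v =>
    ((mem_riemannRochSpace_iff.mp hxB) v).resolve_left hx0
  have hdB : 0 ≤ Divisor.degree B := rr_degree_nonneg B hB0
  set n : ℕ := (Divisor.degree B).toNat with hn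
  have hnB : (n : ℤ) = Divisor.degree B := Int.toNat_of_nonneg hdB
  have hrank : Module.rank K⟮x⟯ F ≤ (n : ℕ) := by
    refine rank_le fun s hs => ?_
    obtain ⟨C, hC0, hC⟩ := rr_exists_common_divisor (K := K) s (fun y => y)
    have hdC : 0 ≤ Divisor.degree C := rr_degree_nonneg C hC0
    set l : ℕ := (Divisor.degree C).toNat + 1 with hl
    have hlC : (l : ℤ) = Divisor.degree C + 1 := by
      rw [hl]; push_cast; rw [Int.toNat_of_nonneg hdC]
    have hli : LinearIndependent K
        (fun p : Fin (l + 1) × s => x ^ (p.1 : ℕ) * (p.2 : F)) := by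
      have h1 : LinearIndependent K
          (fun j : Fin (l + 1) => (⟨x, mem_adjoin_simple_self K x⟩ : K⟮x⟯) ^ (j : ℕ)) :=
        (rr_linearIndependent_pow hx).comp _ Fin.val_injective
      have h2 := linearIndependent_smul h1 hs
      have heq : (fun p : Fin (l + 1) × s => x ^ (p.1 : ℕ) * (p.2 : F)) =
          fun p : Fin (l + 1) × s =>
            ((⟨x, mem_adjoin_simple_self K x⟩ : K⟮x⟯) ^ (p.1 : ℕ)) • (p.2 : F) := by
        funext p
        rw [Algebra.smul_def]
        rfl
      rw [heq]; exact h2
    have hmem : ∀ p : Fin (l + 1) × s,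
        x ^ (p.1 : ℕ) * (p.2 : F) ∈ riemannRochSpace (l • B + C) := by
      rintro ⟨j, y⟩
      have hy0 : (y : F) ≠ 0 := by
        have := hs.ne_zero y
        exact this
      have hy := mem_riemannRochSpace_iff.mp (hC y y.2)
      rw [mem_riemannRochSpace_iff]
      intro v
      right
      have h1 := (hy v).resolve_left hy0
      have h2 := hBx v
      have h3 : 0 ≤ B v := by simpa using Finsupp.le_def.mp hB0 v
      have hj : ((j : ℕ) : ℤ) ≤ l := by
        have := j.2
        omega
      have hj0 : (0 : ℤ) ≤ ((j : ℕ) : ℤ) := Int.natCast_nonneg _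
      show -(l • B + C) v ≤ v.ord (x ^ (j : ℕ) * (y : F))
      rw [v.ord_mul (pow_ne_zero _ hx0) hy0, ← zpow_natCast, v.ord_zpow]
      have hval : (l • B + C) v = (l : ℤ) * B v + C v := by
        rw [Finsupp.add_apply, Finsupp.smul_apply, nsmul_eq_mul]
      rw [hval]
      have h4 : -((j : ℕ) : ℤ) * B v ≤ ((j : ℕ) : ℤ) * v.ord x := by nlinarith
      have h5 : ((j : ℕ) : ℤ) * B v ≤ (l : ℤ) * B v := by nlinarith
      linarith
    haveI := rr_space_finite hdeg v₀ (l • B + C)
    have hli' : LinearIndependent K
        (fun p : Fin (l + 1) × s =>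
          (⟨x ^ (p.1 : ℕ) * (p.2 : F), hmem p⟩ : riemannRochSpace (l • B + C))) :=
      LinearIndependent.of_comp (riemannRochSpace (l • B + C)).subtype hli
    have hcard := hli'.fintype_card_le_finrank
    rw [Fintype.card_prod, Fintype.card_fin, Fintype.card_coe] at hcard
    have h0le : (0 : Divisor K F) ≤ l • B + C :=
      add_nonneg (nsmul_nonneg hB0 l) hC0
    have h6 := (rr_finrank_le_of_le hdeg v₀ h0le).2
    rw [rr_finrank_zero hdeg v₀, map_zero, map_add, map_nsmul, nsmul_eq_mul] at h6
    have hcard' : ((l : ℤ) + 1) * (s.card : ℤ) ≤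
        (Module.finrank K (riemannRochSpace (l • B + C)) : ℤ) := by
      exact_mod_cast hcard
    -- `(l+1) * card ≤ l * deg B + deg C + 1` with `l = deg C + 1`
    by_contra hlt
    push Not at hlt
    have hlt' : (n : ℤ) + 1 ≤ (s.card : ℤ) := by exact_mod_cast hlt
    have hl0 : (0 : ℤ) ≤ (l : ℤ) := Int.natCast_nonneg l
    have h8 : ((l : ℤ) + 1) * ((n : ℤ) + 1) ≤ ((l : ℤ) + 1) * (s.card : ℤ) :=
      mul_le_mul_of_nonneg_left hlt' (by linarith)
    push_cast at h6
    nlinarith
  have hlt : Module.rank K⟮x⟯ F < Cardinal.aleph0 :=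
    lt_of_le_of_lt hrank (Cardinal.natCast_lt_aleph0)
  exact Module.rank_lt_aleph0_iff.mp hlt

/-- **N-SEP**: under `RRHyp` over an algebraically closed field there is a separating
element. -/
theorem exists_sep_of_rrHyp {K F : Type} [Field K] [Field F] [Algebra K F] [IsAlgClosed K]
    (h : Fermat.Agent.H58.RRHyp K F) :
    ∃ x : F, FiniteDimensional (IntermediateField.adjoin K {x}) F ∧
      Algebra.IsSeparable (IntermediateField.adjoin K {x}) F := by
  classical
  obtain ⟨x, hx⟩ := transcendental_exists_of_rrHyp h
  haveI hfin : FiniteDimensional K⟮x⟯ F := finiteDimensional_adjoin_of_rrHyp h hx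
  -- `F` is essentially of finite type over `K`
  haveI h1 : Algebra.EssFiniteType K K⟮x⟯ :=
    IntermediateField.essFiniteType_iff.mpr ⟨{x}, by simp⟩
  haveI h2 : Algebra.EssFiniteType K⟮x⟯ F := inferInstance
  haveI h3 : Algebra.EssFiniteType K F := Algebra.EssFiniteType.comp K K⟮x⟯ F
  obtain ⟨s, hs, hsep⟩ := exists_isTranscendenceBasis_and_isSeparable_of_perfectField K F
  -- `{x}` is a transcendence basis
  have hxb : IsTranscendenceBasis K (fun _ : Unit => x) := by
    have hai : AlgebraicIndependent K (fun _ : Unit => x) :=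
      algebraicIndependent_unique_type_iff.mpr hx
    rw [hai.isTranscendenceBasis_iff_isAlgebraic]
    have hrange : Set.range (fun _ : Unit => x) = {x} := by
      ext y; simp [eq_comm]
    rw [hrange, ← IntermediateField.isAlgebraic_adjoin_iff_top]
    exact Algebra.IsAlgebraic.of_finite K⟮x⟯ F
  have hcard : Cardinal.mk s = Cardinal.mk Unit := hs.cardinalMk_eq hxb
  have hcard1 : s.card = 1 := by
    have : (Cardinal.mk s) = 1 := by rw [hcard]; simp
    rw [Cardinal.mk_coe_finset] at this
    exact_mod_cast this
  obtain ⟨x', rfl⟩ := Finset.card_eq_one.mp hcard1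
  have hx' : Transcendental K x' := by
    have := hs.1.transcendental ⟨x', Finset.mem_singleton_self x'⟩
    exact this
  refine ⟨x', finiteDimensional_adjoin_of_rrHyp h hx', ?_⟩
  rw [Finset.coe_singleton] at hsep
  exact hsep

end Fermat.Agent.H37.ORD

end
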