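import Fermat.Agent.H94.ORD.JacInterfaces
import Fermat.Agent.H21.Ord.DiscBlocks

/-!
# P-ORD, block (G-B), row ORD-GB-C2 : `[C-TAPPROX]` (helper37)

Adapter: helper94's `TaylorApproxC` (on `CompSetup`) from helper21's landed
`Fermat.Agent.H21.Ord.DiscHyp.taylorApprox` (on `DiscHyp`).  The hypothesis `TaylorRedC` is not
needed (helper21's proof contains its own Taylor lemma).
-/

set_option autoImplicit false
set_option synthInstance.maxHeartbeats 400000
set_option linter.unusedSectionVars false
set_option linter.unusedVariables false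

noncomputable section

open AlgebraicCurve ModularCurve Fermat.Agent.H27.ESD

namespace Fermat.Agent.H37.ORD

open Fermat.Agent.H10.FF Fermat.Agent.H72.FF Fermat.Agent.H18.ORD Fermat.Agent.H92.ORD
  Fermat.Agent.H94.FF Fermat.Agent.H94.ORD

/-- A `CompSetup` (helper94) is a `DiscHyp` (helper21). -/
theorem discHyp_of_compSetup {N p : ℕ} {A : ValuationSubring Qb} {Fk : Type} [Field Fk]
    [Algebra (kRes A) Fk] {X : Type} {V : Subring (FLb N)} {red : V →+* Fk}
    {r : Place Qb (FLb N) → X} {pt : Place (kRes A) Fk → X}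
    {smooth : Place (kRes A) Fk → Prop} (hS : CompSetup N p A V red r pt smooth) :
    Fermat.Agent.H21.Ord.DiscHyp A N V red r pt smooth where
  comp := hS.comp
  inv_mem := hS.inv
  deg_one := hS.degL

/-- helper94's `IsUnrCoordC` at a smooth point is helper21's `IsUnrCoordC`. -/
theorem isUnrCoordC_of {N : ℕ} {A : ValuationSubring Qb} {Fk : Type} [Field Fk]
    [Algebra (kRes A) Fk] {X : Type} {V : Subring (FLb N)} {red : V →+* Fk}
    {r : Place Qb (FLb N) → X} {pt : Place (kRes A) Fk → X}
    {smooth : Place (kRes A) Fk → Prop} {Q : Place (kRes A) Fk} (hQ : smooth Q)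
    {P : Place Qb (FLb N)} {t : V}
    (ht : Fermat.Agent.H94.ORD.IsUnrCoordC A N V red r pt Q P t) :
    Fermat.Agent.H21.Ord.IsUnrCoordC A N V red r pt smooth Q P t where
  sm := hQ
  spec := ht.sp
  unrP := ht.unrP
  unrT := ht.unrT
  zero := ht.zero
  simple := ht.simple
  nopole := ht.nopole

/-- **[C-TAPPROX]**, unconditional. -/
theorem taylorApproxC_uncond : TaylorApproxC := by
  intro N p A Fk _ _ X V red r pt smooth hS Q hQ P t ht y hy hnp S _ n x hx pts τ v hpts hτ hv
    hap
  exact (discHyp_of_compSetup hS).taylorApprox hS.prime hS.liesOver Q P t (isUnrCoordC_of hQ ht)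
    y hy hnp S n x hx pts τ v hpts hτ hv hap

/-- **[C-TAPPROX]** in the shape of row ORD-GB-C2. -/
theorem taylorApproxC (_hT : TaylorRedC) : TaylorApproxC := taylorApproxC_uncond

end Fermat.Agent.H37.ORD
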